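import Mathlib.Analysis.Complex.Norm
import Mathlib.LinearAlgebra.AffineSpace.FiniteDimensional
import Mathlib.Algebra.Polynomial.Roots
import Mathlib.Tactic

/-!
# The theorem of Erdős and Anning

For a triangle `A B C` in such a set the integers `P A - P B` and `P A - P C` take finitely many
values, and each pair of values confines `P` to finitely many points.
-/

set_option autoImplicit false

open Polynomial

namespace FA.ErdosAnning

theorem finite_quadratic {a b c : ℝ} (h : ¬(a = 0 ∧ b = 0 ∧ c = 0)) :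
    {r : ℝ | a * r ^ 2 + b * r + c = 0}.Finite := by
  have hne : C a * X ^ 2 + C b * X + C c ≠ 0 := fun e => h
    ⟨by simpa [coeff_X] using congrArg (fun q => coeff q 2) e,
      by simpa [coeff_X] using congrArg (fun q => coeff q 1) e,
      by simpa [coeff_X] using congrArg (fun q => coeff q 0) e⟩
  refine (finite_setOfPred_isRoot hne).subset fun r hr => ?_
  simpa [IsRoot] using hr

theorem sq_norm (z : ℂ) : ‖z‖ ^ 2 = z.re ^ 2 + z.im ^ 2 := by
  rw [Complex.sq_norm, Complex.normSq_apply]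
  ring

/-- The points with two given distance differences to the corners of a triangle are finite. -/
theorem finite_differences (b c : ℂ) (hD : b.re * c.im - b.im * c.re ≠ 0) (i j : ℝ) :
    {P : ℂ | ‖P‖ - ‖P - b‖ = i ∧ ‖P‖ - ‖P - c‖ = j}.Finite := by
  set D := b.re * c.im - b.im * c.re with hDdef
  set βb := (b.re ^ 2 + b.im ^ 2 - i ^ 2) / 2 with hβb
  set βc := (c.re ^ 2 + c.im ^ 2 - j ^ 2) / 2 with hβc
  set u₁ := (βb * c.im - βc * b.im) / D with hu₁
  set u₂ := (βc * b.re - βb * c.re) / D with hu₂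
  set v₁ := (i * c.im - j * b.im) / D with hv₁
  set v₂ := (j * b.re - i * c.re) / D with hv₂
  have hne : ¬(v₁ ^ 2 + v₂ ^ 2 - 1 = 0 ∧ 2 * (u₁ * v₁ + u₂ * v₂) = 0 ∧ u₁ ^ 2 + u₂ ^ 2 = 0) := by
    rintro ⟨hv, -, hu⟩
    obtain ⟨h1, h2⟩ : u₁ = 0 ∧ u₂ = 0 := ⟨by nlinarith [sq_nonneg u₁, sq_nonneg u₂],
      by nlinarith [sq_nonneg u₁, sq_nonneg u₂]⟩
    have eb : b.re * u₁ + b.im * u₂ = βb := by
      rw [hu₁, hu₂]
      field_simp
      rw [hDdef]
      ring
    have ec : c.re * u₁ + c.im * u₂ = βc := by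
      rw [hu₁, hu₂]
      field_simp
      rw [hDdef]
      ring
    have fb : b.re * v₁ + b.im * v₂ = i := by
      rw [hv₁, hv₂]
      field_simp
      rw [hDdef]
      ring
    have fc : c.re * v₁ + c.im * v₂ = j := by
      rw [hv₁, hv₂]
      field_simp
      rw [hDdef]
      ring
    rw [h1, h2, mul_zero, mul_zero, add_zero, hβb] at eb
    rw [h1, h2, mul_zero, mul_zero, add_zero, hβc] at ec
    have gb : b.re * v₂ - b.im * v₁ = 0 := sq_eq_zero_iff.1
      (by linear_combination (b.re ^ 2 + b.im ^ 2) * hv - (b.re * v₁ + b.im * v₂ + i) * fb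
        - 2 * eb)
    have gc : c.re * v₂ - c.im * v₁ = 0 := sq_eq_zero_iff.1
      (by linear_combination (c.re ^ 2 + c.im ^ 2) * hv - (c.re * v₁ + c.im * v₂ + j) * fc
        - 2 * ec)
    refine hD ?_
    linear_combination (-(b.re * c.im - b.im * c.re)) * hv +
      (b.re * v₁ + b.im * v₂) * (-gc) + (c.re * v₁ + c.im * v₂) * gb
  refine ((finite_quadratic hne).image fun r => (⟨u₁ + v₁ * r, u₂ + v₂ * r⟩ : ℂ)).subset ?_
  rintro P ⟨hi, hj⟩
  have hP := sq_norm P
  have hb := sq_norm (P - b)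
  have hc := sq_norm (P - c)
  rw [show ‖P - b‖ = ‖P‖ - i by linarith, Complex.sub_re, Complex.sub_im] at hb
  rw [show ‖P - c‖ = ‖P‖ - j by linarith, Complex.sub_re, Complex.sub_im] at hc
  have lb : b.re * P.re + b.im * P.im = βb + i * ‖P‖ := by
    rw [hβb]
    linear_combination (1 / 2) * hb - (1 / 2) * hP
  have lc : c.re * P.re + c.im * P.im = βc + j * ‖P‖ := by
    rw [hβc]
    linear_combination (1 / 2) * hc - (1 / 2) * hP
  have ex : P.re = u₁ + v₁ * ‖P‖ := by
    rw [hu₁, hv₁]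
    field_simp
    linear_combination c.im * lb - b.im * lc
  have ey : P.im = u₂ + v₂ * ‖P‖ := by
    rw [hu₂, hv₂]
    field_simp
    linear_combination b.re * lc - c.re * lb
  refine ⟨‖P‖, ?_, Complex.ext ex.symm ey.symm⟩
  show _ = 0
  rw [ex, ey] at hP
  linear_combination -hP

theorem collinear_of_infinite {S : Set ℂ} (hS : S.Infinite)
    (hd : ∀ p ∈ S, ∀ q ∈ S, ∃ n : ℕ, dist p q = n) : Collinear ℝ S := by
  obtain ⟨A, hA⟩ := hS.nonempty
  obtain ⟨B, hB, hBA⟩ := hS.exists_notMem_finset {A}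
  rw [Finset.mem_singleton] at hBA
  rw [collinear_iff_of_mem hA]
  refine ⟨B - A, fun C hC => ?_⟩
  set b := B - A with hb
  set c := C - A with hc
  by_cases hD : b.re * c.im - b.im * c.re = 0
  · have hn : b.re ^ 2 + b.im ^ 2 ≠ 0 := by
      rw [← sq_norm]
      exact pow_ne_zero 2 (norm_ne_zero_iff.2 (sub_ne_zero.2 hBA))
    refine ⟨(b.re * c.re + b.im * c.im) / (b.re ^ 2 + b.im ^ 2), ?_⟩
    rw [vadd_eq_add, ← sub_eq_iff_eq_add, ← hc]
    apply Complex.ext
    · rw [Complex.smul_re, smul_eq_mul]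
      field_simp
      linear_combination -b.im * hD
    · rw [Complex.smul_im, smul_eq_mul]
      field_simp
      linear_combination b.re * hD
  · refine absurd ?_ hS.not_finite
    obtain ⟨m, hm⟩ := hd A hA B hB
    obtain ⟨m', hm'⟩ := hd A hA C hC
    refine (((Set.finite_Icc (-(m : ℤ)) m).prod (Set.finite_Icc (-(m' : ℤ)) m')).biUnion
      fun ij _ => (finite_differences b c hD ij.1 ij.2).image (· + A)).subset fun P hP => ?_
    obtain ⟨x, hx⟩ := hd P hP A hA
    obtain ⟨y, hy⟩ := hd P hP B hB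
    obtain ⟨z, hz⟩ := hd P hP C hC
    have t1 := abs_dist_sub_le A B P
    have t2 := abs_dist_sub_le A C P
    rw [dist_comm A P, dist_comm B P, hx, hy, hm, abs_le] at t1
    rw [dist_comm A P, dist_comm C P, hx, hz, hm', abs_le] at t2
    simp only [Set.mem_iUnion]
    refine ⟨((x : ℤ) - y, (x : ℤ) - z), ⟨⟨?_, ?_⟩, ?_, ?_⟩, P - A, ⟨?_, ?_⟩, sub_add_cancel P A⟩
    all_goals try rify
    all_goals try linarith
    · rw [hb, show P - A - (B - A) = P - B by ring, ← dist_eq_norm, ← dist_eq_norm, hx, hy]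
    · rw [hc, show P - A - (C - A) = P - C by ring, ← dist_eq_norm, ← dist_eq_norm, hx, hz]

end FA.ErdosAnning
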